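import Mathlib.NumberTheory.ModularForms.LevelOne.DimensionFormula

/-!
# Level-one rationality (package P1 of the S23 plan)

* `BddRat p` : the power series `p : PowerSeries ℂ` has rational coefficients with bounded
  denominators.
* `span_bddRat_eq_top` : level-one modular forms of weight `k` are spanned over `ℂ` by forms
  whose `q`-expansion is `BddRat`.
* `exists_conj` : conjugation of level-one modular forms by ring homomorphisms `ℂ →+* ℂ`.
* `exists_bdd_denom_linear` : coefficientwise image of a level-one `q`-expansion under a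
  `ℚ`-linear map `ℂ →ₗ[ℚ] ℚ` has bounded denominators.
-/

set_option autoImplicit false

noncomputable section

open UpperHalfPlane ModularForm EisensteinSeries MatrixGroups

namespace Fermat.Agent.S23.H18

/-- A complex power series with rational coefficients of bounded denominator. -/
def BddRat (p : PowerSeries ℂ) : Prop :=
  ∃ M : ℕ, M ≠ 0 ∧ ∃ P : PowerSeries ℤ, (M : ℂ) • p = P.map (Int.castRingHom ℂ)

theorem bddRat_iff {p : PowerSeries ℂ} :
    BddRat p ↔ ∃ M : ℕ, M ≠ 0 ∧ ∀ n, ∃ m : ℤ, (M : ℂ) * p.coeff n = m := by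
  constructor
  · rintro ⟨M, hM, P, hP⟩
    refine ⟨M, hM, fun n => ⟨P.coeff n, ?_⟩⟩
    have := congrArg (PowerSeries.coeff n) hP
    simpa using this
  · rintro ⟨M, hM, h⟩
    choose m hm using h
    refine ⟨M, hM, PowerSeries.mk m, ?_⟩
    ext n
    simp [hm n]

theorem BddRat.zero : BddRat 0 := ⟨1, one_ne_zero, 0, by simp⟩

theorem BddRat.one : BddRat 1 := ⟨1, one_ne_zero, 1, by simp⟩

theorem BddRat.add {p q : PowerSeries ℂ} (hp : BddRat p) (hq : BddRat q) : BddRat (p + q) := by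
  obtain ⟨M, hM, P, hP⟩ := hp
  obtain ⟨N, hN, Q, hQ⟩ := hq
  refine ⟨M * N, Nat.mul_ne_zero hM hN, PowerSeries.C (N : ℤ) * P + PowerSeries.C (M : ℤ) * Q, ?_⟩
  have h1 : ((M * N : ℕ) : ℂ) • (p + q) = (N : ℂ) • ((M : ℂ) • p) + (M : ℂ) • ((N : ℂ) • q) := by
    simp only [smul_add, smul_smul, Nat.cast_mul]
    ring_nf
  rw [h1, hP, hQ]
  ext n
  simp only [map_add, PowerSeries.coeff_smul, PowerSeries.coeff_map, PowerSeries.coeff_C_mul,
    smul_eq_mul, Int.coe_castRingHom, Int.cast_mul, Int.cast_natCast]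

theorem BddRat.mul {p q : PowerSeries ℂ} (hp : BddRat p) (hq : BddRat q) : BddRat (p * q) := by
  obtain ⟨M, hM, P, hP⟩ := hp
  obtain ⟨N, hN, Q, hQ⟩ := hq
  refine ⟨M * N, Nat.mul_ne_zero hM hN, P * Q, ?_⟩
  have h1 : ((M * N : ℕ) : ℂ) • (p * q) = ((M : ℂ) • p) * ((N : ℂ) • q) := by
    rw [smul_mul_smul_comm, Nat.cast_mul]
  rw [h1, hP, hQ, map_mul]

theorem BddRat.pow {p : PowerSeries ℂ} (hp : BddRat p) (n : ℕ) : BddRat (p ^ n) := by
  induction n with
  | zero => simpa using BddRat.one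
  | succ n ih => rw [pow_succ]; exact ih.mul hp

theorem BddRat.rat_smul {p : PowerSeries ℂ} (hp : BddRat p) (c : ℚ) : BddRat ((c : ℂ) • p) := by
  obtain ⟨M, hM, P, hP⟩ := hp
  refine ⟨c.den * M, Nat.mul_ne_zero c.den_nz hM, PowerSeries.C c.num * P, ?_⟩
  have hc : ((c.den : ℂ)) * (c : ℂ) = (c.num : ℂ) := by
    have := Rat.den_mul_eq_num c
    exact_mod_cast congrArg (fun x : ℚ => (x : ℂ)) this
  have h1 : ((c.den * M : ℕ) : ℂ) • ((c : ℂ) • p) = (c.num : ℂ) • ((M : ℂ) • p) := by
    rw [smul_smul, smul_smul, Nat.cast_mul, ← hc]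
    ring_nf
  rw [h1, hP]
  ext n
  simp only [PowerSeries.coeff_smul, PowerSeries.coeff_map, PowerSeries.coeff_C_mul,
    smul_eq_mul, Int.coe_castRingHom, Int.cast_mul]

/-- Coefficients of a `BddRat` power series are rational. -/
theorem BddRat.coeff_rat {p : PowerSeries ℂ} (hp : BddRat p) (n : ℕ) :
    ∃ c : ℚ, (c : ℂ) = p.coeff n := by
  obtain ⟨M, hM, h⟩ := bddRat_iff.mp hp
  obtain ⟨m, hm⟩ := h n
  refine ⟨(m : ℚ) / M, ?_⟩
  have hM' : (M : ℂ) ≠ 0 := by exact_mod_cast hM
  push_cast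
  rw [← hm]
  field_simp

/-- A ring homomorphism `ℂ →+* ℂ` fixes a `BddRat` power series coefficientwise. -/
theorem BddRat.map_eq {p : PowerSeries ℂ} (hp : BddRat p) (σ : ℂ →+* ℂ) :
    p.map σ = p := by
  ext n
  obtain ⟨c, hc⟩ := hp.coeff_rat n
  rw [PowerSeries.coeff_map, ← hc, map_ratCast]

theorem BddRat.neg {p : PowerSeries ℂ} (hp : BddRat p) : BddRat (-p) := by
  have := hp.rat_smul (-1)
  simpa using this

theorem BddRat.sub {p q : PowerSeries ℂ} (hp : BddRat p) (hq : BddRat q) : BddRat (p - q) := by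
  rw [sub_eq_add_neg]
  exact hp.add hq.neg

/-! ### Eisenstein series and the discriminant -/

theorem bddRat_qExpansion_E {k : ℕ} (hk : 3 ≤ k) (hk2 : Even k) :
    BddRat (qExpansion 1 (E hk)) := by
  rw [bddRat_iff]
  set c : ℚ := -(2 * k / bernoulli k) with hc
  refine ⟨c.den, c.den_nz, fun m => ?_⟩
  rw [E_qExpansion_coeff hk hk2 m]
  have hcc : (-(2 * k / bernoulli k : ℂ)) = (c : ℂ) := by
    rw [hc]; push_cast; rfl
  have hden : ((c.den : ℂ)) * (c : ℂ) = (c.num : ℂ) := by
    have := Rat.den_mul_eq_num c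
    exact_mod_cast congrArg (fun x : ℚ => (x : ℂ)) this
  by_cases hm : m = 0
  · refine ⟨c.den, ?_⟩
    simp [hm]
  · refine ⟨c.num * (ArithmeticFunction.sigma (k - 1) m : ℕ), ?_⟩
    rw [if_neg hm, hcc, ← mul_assoc, hden]
    push_cast
    rfl

/-- `E₄³ - E₆²` as a modular form of weight `12`. -/
def e4CubeSubE6Sq : ModularForm 𝒮ℒ 12 :=
  ModularForm.mcast (by norm_num) ((E₄.mul E₄).mul E₄) rfl -
    ModularForm.mcast (by norm_num) (E₆.mul E₆) rfl

theorem qExpansion_e4CubeSubE6Sq :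
    qExpansion 1 e4CubeSubE6Sq = qExpansion 1 E₄ ^ 3 - qExpansion 1 E₆ ^ 2 := by
  unfold e4CubeSubE6Sq
  rw [FunLike.coe_sub, ModularForm.qExpansion_sub one_pos one_mem_strictPeriods_SL,
    ModularForm.qExpansion_mcast, ModularForm.qExpansion_mcast,
    ModularForm.qExpansion_mul one_pos one_mem_strictPeriods_SL,
    ModularForm.qExpansion_mul one_pos one_mem_strictPeriods_SL,
    ModularForm.qExpansion_mul one_pos one_mem_strictPeriods_SL]
  ring

theorem bddRat_qExpansion_e4CubeSubE6Sq : BddRat (qExpansion 1 e4CubeSubE6Sq) := by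
  rw [qExpansion_e4CubeSubE6Sq]
  exact ((bddRat_qExpansion_E _ ⟨2, rfl⟩).pow 3).sub ((bddRat_qExpansion_E _ ⟨3, rfl⟩).pow 2)

theorem coeff_zero_e4CubeSubE6Sq : (qExpansion 1 e4CubeSubE6Sq).coeff 0 = 0 := by
  rw [qExpansion_e4CubeSubE6Sq]
  have h4 := E_qExpansion_coeff_zero (k := 4) (by norm_num) ⟨2, rfl⟩
  have h6 := E_qExpansion_coeff_zero (k := 6) (by norm_num) ⟨3, rfl⟩
  simp only [PowerSeries.coeff_zero_eq_constantCoeff] at h4 h6 ⊢
  simp [h4, h6]

theorem coeff_one_e4CubeSubE6Sq : (qExpansion 1 e4CubeSubE6Sq).coeff 1 = 1728 := by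
  rw [qExpansion_e4CubeSubE6Sq]
  have h4 := E_qExpansion_coeff_zero (k := 4) (by norm_num) ⟨2, rfl⟩
  have h6 := E_qExpansion_coeff_zero (k := 6) (by norm_num) ⟨3, rfl⟩
  have h4' := E₄_qExpansion_coeff_one
  have h6' := E₆_qExpansion_coeff_one
  simp only [PowerSeries.coeff_zero_eq_constantCoeff] at h4 h6
  simp [pow_succ, PowerSeries.coeff_mul, Finset.Nat.antidiagonal_succ, h4, h6, h4', h6']
  norm_num

theorem bddRat_qExpansion_discriminant : BddRat (qExpansion 1 ModularForm.discriminant) := by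
  obtain ⟨c, hc⟩ := CuspForm.exists_smul_discriminant_of_weight_eq_twelve
    (ModularForm.toCuspForm e4CubeSubE6Sq coeff_zero_e4CubeSubE6Sq)
  have hfun : (e4CubeSubE6Sq : ℍ → ℂ) = c • (CuspForm.discriminant : ℍ → ℂ) := by
    have := congrArg (fun f : CuspForm 𝒮ℒ 12 => (f : ℍ → ℂ)) hc
    exact this.symm
  have hq : qExpansion 1 e4CubeSubE6Sq = c • qExpansion 1 ModularForm.discriminant := by
    rw [hfun, ← CuspForm.coe_discriminant]
    exact ModularForm.qExpansion_smul one_pos one_mem_strictPeriods_SL c CuspForm.discriminant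
  have hc1728 : c = 1728 := by
    have := congrArg (PowerSeries.coeff 1) hq
    rw [coeff_one_e4CubeSubE6Sq, PowerSeries.coeff_smul, discriminant_qExpansion_coeff_one] at this
    simpa using this.symm
  have : qExpansion 1 ModularForm.discriminant
      = ((1 / 1728 : ℚ) : ℂ) • qExpansion 1 e4CubeSubE6Sq := by
    rw [hq, hc1728, smul_smul]
    norm_num
  rw [this]
  exact bddRat_qExpansion_e4CubeSubE6Sq.rat_smul _

/-! ### The spanning theorem -/

/-- The set of level-one forms of weight `k` with `BddRat` `q`-expansion. -/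
def goodSet (k : ℤ) : Set (ModularForm 𝒮ℒ k) := {F | BddRat (qExpansion 1 F)}

/-- Multiplication by the discriminant, as a linear map `M_{k-12} → M_k`. -/
def mulDiscriminant (k : ℤ) : ModularForm 𝒮ℒ (k - 12) →ₗ[ℂ] ModularForm 𝒮ℒ k :=
  CuspForm.toModularFormₗ ∘ₗ (CuspForm.discriminantEquiv (k := k)).symm.toLinearMap

theorem qExpansion_mulDiscriminant (k : ℤ) (G : ModularForm 𝒮ℒ (k - 12)) :
    qExpansion 1 (mulDiscriminant k G) =
      qExpansion 1 ModularForm.discriminant * qExpansion 1 G := by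
  have : (mulDiscriminant k G : ℍ → ℂ) = (CuspForm.discriminant : ℍ → ℂ) * (G : ℍ → ℂ) := by
    funext z
    rfl
  rw [this, ← CuspForm.coe_discriminant]
  exact ModularForm.qExpansion_mul_coe one_pos one_mem_strictPeriods_SL CuspForm.discriminant G

theorem mulDiscriminant_mem_goodSet (k : ℤ) {G : ModularForm 𝒮ℒ (k - 12)}
    (hG : G ∈ goodSet (k - 12)) : mulDiscriminant k G ∈ goodSet k := by
  show BddRat _
  rw [qExpansion_mulDiscriminant]
  exact bddRat_qExpansion_discriminant.mul hG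

theorem mem_span_goodSet_aux : ∀ (n : ℕ) (k : ℤ), k.toNat = n → ∀ F : ModularForm 𝒮ℒ k,
    F ∈ Submodule.span ℂ (goodSet k) := by
  intro n
  induction n using Nat.strong_induction_on with
  | _ n ih =>
    intro k hkn F
    rcases lt_or_ge k 0 with hk0 | hk0
    · have : F = 0 := rank_zero_iff_forall_zero.mp (levelOne_neg_weight_rank_zero hk0) F
      rw [this]; exact Submodule.zero_mem _
    rcases Int.even_or_odd k with hkev | hkodd
    swap
    · rw [levelOne_odd_weight_eq_zero hkodd F]; exact Submodule.zero_mem _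
    by_cases hkz : k = 0
    · -- weight 0 : constants
      subst hkz
      have hone : (1 : ModularForm 𝒮ℒ 0) ≠ 0 := by
        intro h
        have := congrArg (fun f : ModularForm 𝒮ℒ 0 => f I) h
        simp at this
      obtain ⟨c, hc⟩ := (finrank_eq_one_iff_of_nonzero' (1 : ModularForm 𝒮ℒ 0) hone).mp
        (Module.rank_eq_one_iff_finrank_eq_one.mp levelOne_weight_zero_rank_one) F
      rw [← hc]
      refine Submodule.smul_mem _ _ (Submodule.subset_span ?_)
      show BddRat _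
      rw [ModularForm.qExpansion_one]
      exact BddRat.one
    by_cases hk2 : k = 2
    · subst hk2
      have : F = 0 := rank_zero_iff_forall_zero.mp levelOne_weight_two_rank_zero F
      rw [this]; exact Submodule.zero_mem _
    lift k to ℕ using hk0
    have hkev' : Even k := by exact_mod_cast hkev
    have hk3 : 3 ≤ k := by
      rcases hkev' with ⟨r, hr⟩
      have h0 : k ≠ 0 := by exact_mod_cast hkz
      have h2 : k ≠ 2 := by exact_mod_cast hk2
      omega
    rcases Nat.lt_or_ge k 3 with hk3' | -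
    · omega
    · -- weight ≥ 4
      obtain ⟨g, hg⟩ := ModularForm.sub_smul_isCuspForm F (E hk3)
        (E_qExpansion_coeff_zero hk3 hkev')
      set c := (qExpansion 1 F).coeff 0 with hc
      set G := CuspForm.discriminantEquiv g with hG
      have hGmem : G ∈ Submodule.span ℂ (goodSet ((k : ℤ) - 12)) :=
        ih ((k : ℤ) - 12).toNat (by omega) _ rfl G
      have hL : mulDiscriminant (k : ℤ) G ∈ Submodule.span ℂ (goodSet (k : ℤ)) := by
        have hle : Submodule.map (mulDiscriminant (k : ℤ)) (Submodule.span ℂ (goodSet ((k : ℤ) - 12)))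
            ≤ Submodule.span ℂ (goodSet (k : ℤ)) := by
          rw [Submodule.map_span, Submodule.span_le]
          rintro _ ⟨G', hG', rfl⟩
          exact Submodule.subset_span (mulDiscriminant_mem_goodSet _ hG')
        exact hle (Submodule.mem_map_of_mem hGmem)
      have hF : F = c • E hk3 + mulDiscriminant (k : ℤ) G := by
        have h1 : mulDiscriminant (k : ℤ) G = CuspForm.toModularFormₗ g := by
          simp [mulDiscriminant, hG]
        rw [h1, hg]
        abel
      rw [hF]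
      refine Submodule.add_mem _ (Submodule.smul_mem _ _ (Submodule.subset_span ?_)) hL
      exact bddRat_qExpansion_E hk3 hkev'

/-- **Level-one forms are spanned by forms with rational bounded-denominator `q`-expansion.** -/
theorem span_goodSet_eq_top (k : ℤ) : Submodule.span ℂ (goodSet k) = ⊤ :=
  eq_top_iff.mpr fun F _ => mem_span_goodSet_aux _ k rfl F

/-! ### Conjugation by ring homomorphisms of `ℂ` -/

theorem map_smul_powerSeries (σ : ℂ →+* ℂ) (c : ℂ) (p : PowerSeries ℂ) :
    (c • p).map σ = σ c • p.map σ := by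
  ext n
  simp

/-- **Conjugate of a level-one modular form**: for a ring homomorphism `σ : ℂ →+* ℂ` and
`F : ModularForm 𝒮ℒ k` there is a modular form whose `q`-expansion is the coefficientwise
`σ`-image of that of `F`. -/
theorem exists_conj (σ : ℂ →+* ℂ) {k : ℤ} (F : ModularForm 𝒮ℒ k) :
    ∃ F' : ModularForm 𝒮ℒ k, qExpansion 1 F' = (qExpansion 1 F).map σ := by
  have hF : F ∈ Submodule.span ℂ (goodSet k) := by rw [span_goodSet_eq_top]; trivial
  induction hF using Submodule.span_induction with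
  | mem G hG => exact ⟨G, (BddRat.map_eq hG σ).symm⟩
  | zero => exact ⟨0, by simp [qExpansion_zero]⟩
  | add G H _ _ ihG ihH =>
    obtain ⟨G', hG'⟩ := ihG
    obtain ⟨H', hH'⟩ := ihH
    refine ⟨G' + H', ?_⟩
    rw [FunLike.coe_add, FunLike.coe_add,
      ModularForm.qExpansion_add one_pos one_mem_strictPeriods_SL,
      ModularForm.qExpansion_add one_pos one_mem_strictPeriods_SL, hG', hH', map_add]
  | smul c G _ ihG =>
    obtain ⟨G', hG'⟩ := ihG
    refine ⟨σ c • G', ?_⟩
    rw [FunLike.coe_smul, FunLike.coe_smul,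
      ModularForm.qExpansion_smul one_pos one_mem_strictPeriods_SL,
      ModularForm.qExpansion_smul one_pos one_mem_strictPeriods_SL, hG', map_smul_powerSeries]

/-- Coefficient form of `exists_conj`. -/
theorem exists_conj_coeff (σ : ℂ →+* ℂ) {k : ℤ} (F : ModularForm 𝒮ℒ k) :
    ∃ F' : ModularForm 𝒮ℒ k, ∀ n, (qExpansion 1 F').coeff n = σ ((qExpansion 1 F).coeff n) := by
  obtain ⟨F', hF'⟩ := exists_conj σ F
  exact ⟨F', fun n => by rw [hF', PowerSeries.coeff_map]⟩

/-- **Conjugate of a level-one cusp form.** -/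
theorem exists_conj_cuspForm (σ : ℂ →+* ℂ) {k : ℤ} (F : CuspForm 𝒮ℒ k) :
    ∃ F' : CuspForm 𝒮ℒ k, qExpansion 1 F' = (qExpansion 1 F).map σ := by
  obtain ⟨G, hG⟩ := exists_conj σ (CuspForm.toModularFormₗ F)
  have hF0 : (qExpansion 1 (CuspForm.toModularFormₗ F)).coeff 0 = 0 :=
    (ModularForm.isCuspForm_iff_coeffZero_eq_zero _).mp (CuspForm.isCuspForm_toModularFormₗ F)
  have hG0 : (qExpansion 1 G).coeff 0 = 0 := by
    rw [hG, PowerSeries.coeff_map, hF0, map_zero]
  exact ⟨ModularForm.toCuspForm G hG0, hG⟩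

/-! ### `ℚ`-linear functionals applied coefficientwise -/

/-- For a `ℚ`-linear map `r : ℂ →ₗ[ℚ] ℚ` and a level-one modular form `F`, the rational
numbers `r (a_n(F))` have a common denominator. -/
theorem exists_bdd_denom_linear {k : ℤ} (F : ModularForm 𝒮ℒ k) (r : ℂ →ₗ[ℚ] ℚ) :
    ∃ M : ℕ, M ≠ 0 ∧ ∀ n, ∃ m : ℤ, (M : ℚ) * r ((qExpansion 1 F).coeff n) = m := by
  have hF : F ∈ Submodule.span ℂ (goodSet k) := by rw [span_goodSet_eq_top]; trivial
  induction hF using Submodule.span_induction generalizing r with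
  | mem G hG =>
    obtain ⟨M, hM, h⟩ := bddRat_iff.mp hG
    refine ⟨M * (r 1).den, Nat.mul_ne_zero hM (r 1).den_nz, fun n => ?_⟩
    obtain ⟨m, hm⟩ := h n
    refine ⟨m * (r 1).num, ?_⟩
    have hM' : (M : ℂ) ≠ 0 := by exact_mod_cast hM
    have hcoeff : (qExpansion 1 G).coeff n = ((m / M : ℚ)) • (1 : ℂ) := by
      rw [Rat.smul_def, mul_one]
      push_cast
      rw [← hm]
      field_simp
    rw [hcoeff, map_smul, smul_eq_mul]
    have hMq : (M : ℚ) ≠ 0 := by exact_mod_cast hM
    have hden := Rat.den_mul_eq_num (r 1)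
    push_cast
    calc (M : ℚ) * ((r 1).den : ℚ) * ((m : ℚ) / M * r 1)
        = (m : ℚ) * (((r 1).den : ℚ) * r 1) := by field_simp
      _ = (m : ℚ) * ((r 1).num : ℚ) := by rw [hden]
  | zero => exact ⟨1, one_ne_zero, fun n => ⟨0, by simp [qExpansion_zero]⟩⟩
  | add G H _ _ ihG ihH =>
    obtain ⟨M, hM, hG'⟩ := ihG r
    obtain ⟨N, hN, hH'⟩ := ihH r
    refine ⟨M * N, Nat.mul_ne_zero hM hN, fun n => ?_⟩
    obtain ⟨a, ha⟩ := hG' n
    obtain ⟨b, hb⟩ := hH' n
    refine ⟨N * a + M * b, ?_⟩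
    rw [FunLike.coe_add, ModularForm.qExpansion_add one_pos one_mem_strictPeriods_SL, map_add,
      map_add]
    push_cast
    rw [← ha, ← hb]
    ring
  | smul c G _ ihG =>
    -- use the functional `x ↦ r (c * x)`
    let rc : ℂ →ₗ[ℚ] ℚ := r ∘ₗ (LinearMap.mulLeft ℚ c)
    obtain ⟨M, hM, hG'⟩ := ihG rc
    refine ⟨M, hM, fun n => ?_⟩
    obtain ⟨a, ha⟩ := hG' n
    refine ⟨a, ?_⟩
    rw [FunLike.coe_smul, ModularForm.qExpansion_smul one_pos one_mem_strictPeriods_SL,
      PowerSeries.coeff_smul, smul_eq_mul]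
    exact ha

end Fermat.Agent.S23.H18
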